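/-
S56 (Taylor-Wiles primes), block GW: Selmer groups in the relative model of `Fermat/Agent/PT`.

* ambient group `GQ`, coefficients over `ZMod p`;
* global classes : `H1 (LS S) ⊤ ρ`  (`= H¹(G_{Q,S}, ρ)`);
* local classes at a prime `v` : `H1 Lall (⊤ ⊓ Dl v) ρ`  (`Dl v = Dec (primeLocalPlace v)`);
* localisation : `loc1 S ⊤ ρ (primeLocalPlace v)`;
* a local condition is a family `𝓛 v` of subspaces of the local `H¹`, for ALL primes `v`.
-/
import Fermat.Agent.S56.GW.Cup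
import Fermat.Agent.PT.Bridge.GalLevels
import Fermat.Agent.PT.Hens.RestrictIne

set_option autoImplicit false
set_option maxHeartbeats 400000
set_option linter.unusedSectionVars false

open ExtCitation

noncomputable section

namespace Fermat.Agent.S56.GW

open Fermat.Agent.PT

variable {p : ℕ} [Fact p.Prime]
variable {A B : Type} [AddCommGroup A] [Module (ZMod p) A] [AddCommGroup B] [Module (ZMod p) B]

/-- A family of local conditions. -/
abbrev LocCond (ρ : Representation (ZMod p) GQ A) : Type :=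
  ∀ v : Nat.Primes, Submodule (ZMod p) (H1 Lall (⊤ ⊓ Dl v) ρ)

/-- Localisation at the prime `v` (at the place `primeLocalPlace v`). -/
abbrev locv (S : Finset Nat.Primes) (ρ : Representation (ZMod p) GQ A) (v : Nat.Primes) :
    H1 (LS S) ⊤ ρ →ₗ[ZMod p] H1 Lall (⊤ ⊓ Dl v) ρ :=
  loc1 S ⊤ ρ (primeLocalPlace v)

/-- The Selmer group `{x ∈ H¹(G_{Q,S},ρ) : loc_v x ∈ 𝓛 v for all v ∈ S}`. -/
def Sel (S : Finset Nat.Primes) (ρ : Representation (ZMod p) GQ A) (𝓛 : LocCond ρ) :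
    Submodule (ZMod p) (H1 (LS S) ⊤ ρ) :=
  ⨅ v : ↥S, (𝓛 v.1).comap (locv S ρ v.1)

theorem mem_Sel {S : Finset Nat.Primes} {ρ : Representation (ZMod p) GQ A} {𝓛 : LocCond ρ}
    {x : H1 (LS S) ⊤ ρ} : x ∈ Sel S ρ 𝓛 ↔ ∀ v ∈ S, locv S ρ v x ∈ 𝓛 v := by
  simp [Sel, Submodule.mem_iInf]

/-- Restriction to inertia at `v`. -/
def resIne (ρ : Representation (ZMod p) GQ A) (v : Nat.Primes) :
    H1 Lall (⊤ ⊓ Dl v) ρ →ₗ[ZMod p] H1 Lall (⊤ ⊓ Ine (primeLocalPlace v)) ρ :=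
  (inclC ρ (fun _ h => h : Lall ≤ Lall) (inf_le_inf_left ⊤ (Ine_le_Dec (primeLocalPlace v)))).H1

/-- The unramified classes. -/
def Lur (ρ : Representation (ZMod p) GQ A) : LocCond ρ := fun v => LinearMap.ker (resIne ρ v)

/-- `𝓛` on `Smin`, everything on `Q`, unramified classes elsewhere. -/
def condQ (Smin : Finset Nat.Primes) {ρ : Representation (ZMod p) GQ A} (𝓛 : LocCond ρ)
    (Q : Finset Nat.Primes) : LocCond ρ :=
  fun v => if v ∈ Smin then 𝓛 v else if v ∈ Q then ⊤ else Lur ρ v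

/-- `Ш¹`: the classes which are trivial at all `v ∈ S`. -/
def Sh1 (S : Finset Nat.Primes) (ρ : Representation (ZMod p) GQ A) :
    Submodule (ZMod p) (H1 (LS S) ⊤ ρ) := Sel S ρ (fun _ => ⊥)

variable {ρ : Representation (ZMod p) GQ A} {σ : Representation (ZMod p) GQ B}
  {β : A →ₗ[ZMod p] B →ₗ[ZMod p] ZMod p}

/-- The local cup product at `v`. -/
def cupLoc (hβ : IsPairingOn ⊤ ρ σ (cycRep p) β) (v : Nat.Primes) :
    H1 Lall (⊤ ⊓ Dl v) ρ →ₗ[ZMod p] H1 Lall (⊤ ⊓ Dl v) σ →ₗ[ZMod p]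
      H2 Lall (⊤ ⊓ Dl v) (cycRep p) :=
  cupH Lall (hβ.mono le_top)

/-- The annihilator of a family of local conditions under the local cup products. -/
def perp (hβ : IsPairingOn ⊤ ρ σ (cycRep p) β) (𝓛 : LocCond ρ) : LocCond σ := fun v =>
  ⨅ x : 𝓛 v, LinearMap.ker (cupLoc hβ v x.1)

theorem mem_perp {hβ : IsPairingOn ⊤ ρ σ (cycRep p) β} {𝓛 : LocCond ρ} {v : Nat.Primes}
    {y : H1 Lall (⊤ ⊓ Dl v) σ} : y ∈ perp hβ 𝓛 v ↔ ∀ x ∈ 𝓛 v, cupLoc hβ v x y = 0 := by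
  simp [perp, Submodule.mem_iInf]

/-- Inflation `H¹(G_{Q,S}) → H¹(G_{Q,S'})`, `S ⊆ S'`. -/
def inflS {S S' : Finset Nat.Primes} (h : S ⊆ S') (ρ : Representation (ZMod p) GQ A) :
    H1 (LS S) ⊤ ρ →ₗ[ZMod p] H1 (LS S') ⊤ ρ :=
  (inclC ρ (LS_mono h) (le_refl ⊤)).H1

theorem locv_inflS {S S' : Finset Nat.Primes} (h : S ⊆ S') (ρ : Representation (ZMod p) GQ A)
    (v : Nat.Primes) (x : H1 (LS S) ⊤ ρ) : locv S' ρ v (inflS h ρ x) = locv S ρ v x := by
  obtain ⟨x, rfl⟩ := H1.mk_surjective (LS S) ⊤ ρ x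
  rfl

end Fermat.Agent.S56.GW

end
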