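/-
S56 (Taylor-Wiles primes), block GW: the LOCAL CONTRACTS consumed by the Greenberg-Wiles argument
(`def ...Statement : Prop`; producers = block (Lq)).  Relative model: `H¹(D_v, ρ) = H1 Lall (⊤ ⊓ Dl v) ρ`.
-/
import Fermat.Agent.S56.GW.Sel
import Fermat.Agent.PT.Coh.DictV

set_option autoImplicit false
set_option maxHeartbeats 400000
set_option linter.unusedSectionVars false

open ExtCitation Module

noncomputable section

namespace Fermat.Agent.S56.GW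

open Fermat.Agent.PT

variable {p : ℕ} [Fact p.Prime]
variable {A : Type} [AddCommGroup A] [Module (ZMod p) A]

/-- `ρ` is unramified at `v` (inertia group of the place `primeLocalPlace v`). -/
def UnramAt (ρ : Representation (ZMod p) GQ A) (v : Nat.Primes) : Prop :=
  ∀ g ∈ Ine (primeLocalPlace v), ρ g = 1

/-- `{a | ρ d a = χ(d) a for all d ∈ D_v} = H⁰(D_v, ρ(-1))`. -/
def twInv (ρ : Representation (ZMod p) GQ A) (v : Nat.Primes) : Submodule (ZMod p) A where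
  carrier := {a | ∀ d ∈ Dl v, ρ d a = (cycloChar p d : ZMod p) • a}
  add_mem' := by intro a b ha hb d hd; simp [ha d hd, hb d hd]
  zero_mem' := by intro d _; simp
  smul_mem' := by intro c a ha d hd; rw [map_smul, ha d hd, smul_comm]

theorem mem_twInv {ρ : Representation (ZMod p) GQ A} {v : Nat.Primes} {a : A} :
    a ∈ twInv ρ v ↔ ∀ d ∈ Dl v, ρ d a = (cycloChar p d : ZMod p) • a := Iff.rfl

/-- Explicit description of the unramified classes. -/
theorem mk_mem_Lur_iff (ρ : Representation (ZMod p) GQ A) (v : Nat.Primes)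
    (z : Z1 Lall (⊤ ⊓ Dl v) ρ) :
    H1.mk Lall (⊤ ⊓ Dl v) ρ z ∈ Lur ρ v ↔
      ∃ a : A, ∀ τ ∈ Ine (primeLocalPlace v), (z : GQ → GQ → A) 1 τ = ρ τ a - a := by
  have hz : (z : GQ → GQ → A) ∈ Z1 Lall (⊤ ⊓ Ine (primeLocalPlace v)) ρ :=
    ((inclC ρ (fun _ h => h : Lall ≤ Lall)
      (inf_le_inf_left ⊤ (Ine_le_Dec (primeLocalPlace v)))).Z1 z).2
  have h1 : H1.mk Lall (⊤ ⊓ Dl v) ρ z ∈ Lur ρ v ↔
      (z : GQ → GQ → A) ∈ B1 Lall (⊤ ⊓ Ine (primeLocalPlace v)) ρ := by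
    rw [Lur, LinearMap.mem_ker, resIne, CMap.H1_mk, H1.mk_eq_zero_iff]
    rfl
  rw [h1, mem_B1_iff hz]
  simp only [top_inf_eq]

variable (p)

/-- (Lq-ur)  `dim H¹_ur(D_v, ρ) ≤ h⁰(D_v, ρ)` for `ρ` unramified at `v`
(`H¹_ur ↪ A/(φ-1)A`, `x ↦ x(φ)`; `D_v/I_v` is topologically generated by a Frobenius `φ`; `A^{D_v} = ker(φ - 1)`). -/
def UrBoundStatement : Prop :=
  ∀ (A : Type) [AddCommGroup A] [Module (ZMod p) A] [Module.Finite (ZMod p) A]
    (ρ : Representation (ZMod p) GQ A), IsSmoothRep Lall ρ → ∀ v : Nat.Primes, UnramAt ρ v →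
      Module.Finite (ZMod p) (Lur ρ v) ∧
        finrank (ZMod p) (Lur ρ v) ≤ finrank (ZMod p) (invOf (Dl v) ρ)

/-- (Lq-tame)  `dim H¹(D_v, ρ)/H¹_ur ≤ h⁰(D_v, ρ(-1))` for `v ≠ p`, `ρ` unramified at `v`
(`H¹/H¹_ur ↪ Hom_{D_v}(I_v, A)`; every smooth homomorphism `I_v → F_p` is a multiple of the Kummer character
`i ↦ i(v^{1/p})/v^{1/p}`, on which `D_v` acts through `χ`). -/
def TameBoundStatement : Prop :=
  ∀ (A : Type) [AddCommGroup A] [Module (ZMod p) A] [Module.Finite (ZMod p) A]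
    (ρ : Representation (ZMod p) GQ A), IsSmoothRep Lall ρ → ∀ v : Nat.Primes, v ≠ pPrime p →
      UnramAt ρ v →
      Module.Finite (ZMod p) (H1 Lall (⊤ ⊓ Dl v) ρ ⧸ Lur ρ v) ∧
        finrank (ZMod p) (H1 Lall (⊤ ⊓ Dl v) ρ ⧸ Lur ρ v) ≤ finrank (ZMod p) (twInv ρ v)

variable {p}

/-- The bound used at the Taylor-Wiles primes. -/
theorem finrank_H1_le (hur : UrBoundStatement p) (htame : TameBoundStatement p)
    [Module.Finite (ZMod p) A] (ρ : Representation (ZMod p) GQ A) (hρ : IsSmoothRep Lall ρ)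
    (v : Nat.Primes) (hv : v ≠ pPrime p) (hun : UnramAt ρ v) (f : ℕ)
    (hf : finrank (ZMod p) (twInv ρ v) ≤ f) :
    Module.Finite (ZMod p) (H1 Lall (⊤ ⊓ Dl v) ρ) ∧
      finrank (ZMod p) (H1 Lall (⊤ ⊓ Dl v) ρ) ≤ finrank (ZMod p) (invOf (Dl v) ρ) + f := by
  obtain ⟨h1, h2⟩ := hur A ρ hρ v hun
  obtain ⟨h3, h4⟩ := htame A ρ hρ v hv hun
  have hfin : Module.Finite (ZMod p) (H1 Lall (⊤ ⊓ Dl v) ρ) :=
    Module.Finite.of_submodule_quotient (Lur ρ v)
  refine ⟨hfin, ?_⟩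
  have := Submodule.finrank_quotient_add_finrank (Lur ρ v)
  omega

end Fermat.Agent.S56.GW

end
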