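/-
S56 (Taylor-Wiles primes), block GW: change of the set of ramification `S ⊆ S'`.
-/
import Fermat.Agent.S56.GW.Local
import Fermat.Agent.PT.Coh.DictV
import Fermat.Agent.PT.Koch.Levels
import Fermat.Agent.PT.Base.Conj
import Fermat.Agent.PT.Duality.H3Van

set_option autoImplicit false
set_option maxHeartbeats 400000
set_option linter.unusedSectionVars false

open ExtCitation
open scoped Pointwise

noncomputable section

namespace Fermat.Agent.S56.GW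

open Fermat.Agent.PT

variable {p : ℕ} [Fact p.Prime]
variable {A : Type} [AddCommGroup A] [Module (ZMod p) A]

/-- Inflation is injective: the criterion `mem_B1_iff` (`PT/Coh/DictV.lean`) does not depend on the level system. -/
theorem inflS_injective {S S' : Finset Nat.Primes} (h : S ⊆ S') (ρ : Representation (ZMod p) GQ A) :
    Function.Injective (inflS h ρ) := by
  rw [injective_iff_map_eq_zero]
  intro x hx
  obtain ⟨z, rfl⟩ := H1.mk_surjective (LS S) ⊤ ρ x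
  have hz' : (z : GQ → GQ → A) ∈ Z1 (LS S') ⊤ ρ := ((inclC ρ (LS_mono h) (le_refl ⊤)).Z1 z).2
  have h1 : (z : GQ → GQ → A) ∈ B1 (LS S') ⊤ ρ :=
    (H1.mk_eq_zero_iff (LS S') ⊤ ρ ((inclC ρ (LS_mono h) (le_refl ⊤)).Z1 z)).1 hx
  rw [H1.mk_eq_zero_iff, mem_B1_iff z.2]
  exact (mem_B1_iff hz').1 h1

theorem Enlarge_one_one {L : LevelSystem GQ} {V : Subgroup GQ} {ρ : Representation (ZMod p) GQ A}
    {z : GQ → GQ → A} (hz : z ∈ Z1 L V ρ) : z 1 1 = 0 := by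
  have h1 := congrFun (congrFun (congrFun hz.2 1) 1) 1
  simpa using h1

theorem Enlarge_not_overS {S : Finset Nat.Primes} {v : Nat.Primes} (hv : v ∉ S) {𝒜 : Place}
    (h𝒜 : 𝒜.LiesOverPrime (v : ℕ)) : ¬ 𝒜.OverS S := by
  rintro ⟨q, hq, h⟩
  exact hv (Base.liesOverPrime_unique h𝒜 h ▸ hq)

/-- A class of `G_{Q,S}` is unramified at `v ∉ S`. -/
theorem locv_mem_Lur (S : Finset Nat.Primes) (ρ : Representation (ZMod p) GQ A) (v : Nat.Primes)
    (hv : v ∉ S) (x : H1 (LS S) ⊤ ρ) : locv S ρ v x ∈ Lur ρ v := by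
  obtain ⟨z, rfl⟩ := H1.mk_surjective (LS S) ⊤ ρ x
  show H1.mk Lall (⊤ ⊓ Dl v) ρ ((inclC ρ (LS_le_Lall S) inf_le_left).Z1 z) ∈ Lur ρ v
  rw [mk_mem_Lur_iff]
  refine ⟨0, fun τ hτ => ?_⟩
  show (z : GQ → GQ → A) 1 τ = ρ τ 0 - 0
  have h0 := Enlarge_one_one z.2
  obtain ⟨⟨-, U, hU, hs⟩, -⟩ := z.2
  have hτU : τ ∈ U := Koch.Ine_le_of_mem_LS hU (Base.isFin_Pl0 v)
    (Enlarge_not_overS hv (Base.liesOver_Pl0 v)) hτ
  have := hs 1 1 1 U.one_mem τ hτU
  rw [mul_one, one_mul] at this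
  rw [this, h0, map_zero, sub_zero]

/-- A class of `G_{Q,S'}` with coefficients unramified outside `S`, which is unramified at all `v ∈ S' \ S`, is inflated from
`G_{Q,S}`. -/
theorem exists_inflS_of_mem_Lur {S S' : Finset Nat.Primes} (h : S ⊆ S') [Module.Finite (ZMod p) A]
    (σ : Representation (ZMod p) GQ A) (hσ : IsSmoothRep (LS S) σ) (y : H1 (LS S') ⊤ σ)
    (hy : ∀ v ∈ S', v ∉ S → locv S' σ v y ∈ Lur σ v) : ∃ y₀ : H1 (LS S) ⊤ σ, inflS h σ y₀ = y := by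
  obtain ⟨z, rfl⟩ := H1.mk_surjective (LS S') ⊤ σ y
  have hc : ∀ a g : GQ, (z : GQ → GQ → A) 1 (a * g) = σ a ((z : GQ → GQ → A) 1 g) +
      (z : GQ → GQ → A) 1 a := fun a g => inh1_cocycle z.2 a (Subgroup.mem_top a) g
  have h11 : (z : GQ → GQ → A) 1 1 = 0 := Enlarge_one_one z.2
  obtain ⟨Uσ, hUσ, hfix⟩ := exists_level_trivial hσ
  obtain ⟨⟨hequiv, U', hU', hs⟩, hd⟩ := z.2
  have hsinv : ∀ a : GQ, σ a = 1 → σ a⁻¹ = 1 := by
    intro a ha
    have h1 : σ a⁻¹ * σ a = 1 := by rw [← map_mul, inv_mul_cancel, map_one]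
    rwa [ha, mul_one] at h1
  let W : Subgroup GQ :=
    { carrier := {g | σ g = 1 ∧ (z : GQ → GQ → A) 1 g = 0}
      one_mem' := ⟨map_one σ, h11⟩
      mul_mem' := by
        rintro a b ⟨ha, ha'⟩ ⟨hb, hb'⟩
        exact ⟨by rw [map_mul, ha, hb, mul_one], by rw [hc, hb', ha', map_zero, add_zero]⟩
      inv_mem' := by
        rintro a ⟨ha, ha'⟩
        refine ⟨hsinv a ha, ?_⟩
        have h1 := hc a⁻¹ a
        rw [inv_mul_cancel, h11, ha', map_zero, zero_add] at h1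
        exact h1.symm }
  have hWconj : ∀ g ∈ W, ∀ x : GQ, x * g * x⁻¹ ∈ W := by
    rintro g ⟨hg, hg'⟩ x
    refine ⟨?_, ?_⟩
    · rw [map_mul, map_mul, hg, mul_one, ← map_mul, mul_inv_cancel, map_one]
    · rw [mul_assoc, hc x, hc g, hg, hg', add_zero, Module.End.one_apply, ← hc x, mul_inv_cancel, h11]
  have hWopen : Lall.IsOpen W := by
    obtain ⟨W0, hW0, h1, h2⟩ := (LS S').directed' Uσ (LS_mono h hUσ) U' hU'
    refine ⟨W0, LS_le_Lall S' hW0, fun u hu => ⟨hfix u (h1 hu), ?_⟩⟩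
    have := hs 1 1 1 U'.one_mem u (h2 hu)
    rw [mul_one, one_mul] at this
    rw [this, h11]
  have hbase : ∀ q : Nat.Primes, q ∉ S → Ine (Base.Pl0 q) ≤ W := by
    intro q hq i hi
    have hiσ : σ i = 1 := hfix i (Koch.Ine_le_of_mem_LS hUσ (Base.isFin_Pl0 q)
      (Enlarge_not_overS hq (Base.liesOver_Pl0 q)) hi)
    refine ⟨hiσ, ?_⟩
    by_cases hq' : q ∈ S'
    · have h1 := hy q hq' hq
      have h2 : H1.mk Lall (⊤ ⊓ Dl q) σ ((inclC σ (LS_le_Lall S') inf_le_left).Z1 z) ∈ Lur σ q := h1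
      rw [mk_mem_Lur_iff] at h2
      obtain ⟨a, ha⟩ := h2
      have h3 : (z : GQ → GQ → A) 1 i = σ i a - a := ha i hi
      rw [h3, hiσ, Module.End.one_apply, sub_self]
    · have hiU : i ∈ U' := Koch.Ine_le_of_mem_LS hU' (Base.isFin_Pl0 q)
        (Enlarge_not_overS hq' (Base.liesOver_Pl0 q)) hi
      have := hs 1 1 1 U'.one_mem i hiU
      rw [mul_one, one_mul] at this
      rw [this, h11]
  have hWS : (LS S).IsOpen W := by
    refine Koch.isOpen_LS_of_inertia hWopen fun ℬ hfin hS i hi => ?_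
    obtain ⟨q, hq⟩ := hfin
    have hqS : q ∉ S := fun hqS => hS ⟨q, hqS, hq⟩
    obtain ⟨g, rfl⟩ := Base.exists_smul_Pl0_eq hq
    have hi' : g⁻¹ * i * g ∈ Ine (Base.Pl0 q) := by
      have h1 := Koch.conj_mem_Ine g⁻¹ hi
      rw [inv_inv, inv_smul_smul] at h1
      exact h1
    have h2 := hWconj _ (hbase q hqS hi') g
    have h3 : g * (g⁻¹ * i * g) * g⁻¹ = i := by group
    rwa [h3] at h2
  obtain ⟨U'', hU'', hle⟩ := hWS
  have hdiff : ∀ a b : GQ, (z : GQ → GQ → A) a b = (z : GQ → GQ → A) 1 b - (z : GQ → GQ → A) 1 a := by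
    intro a b
    have h1 := congrFun (congrFun (congrFun hd 1) a) b
    simp only [d1_apply, Pi.zero_apply] at h1
    have h2 : (z : GQ → GQ → A) a b = (z : GQ → GQ → A) 1 b - (z : GQ → GQ → A) 1 a +
      ((z : GQ → GQ → A) a b - (z : GQ → GQ → A) 1 b + (z : GQ → GQ → A) 1 a) := by abel
    rw [h2, h1, add_zero]
  have hzS : (z : GQ → GQ → A) ∈ Z1 (LS S) ⊤ σ := by
    refine ⟨⟨hequiv, U'', hU'', fun g₀ g₁ u₀ h₀ u₁ h₁ => ?_⟩, hd⟩
    rw [hdiff, hdiff g₀ g₁, hc g₁ u₁, hc g₀ u₀, (hle h₀).2, (hle h₁).2, map_zero, map_zero,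
      zero_add, zero_add]
  exact ⟨H1.mk (LS S) ⊤ σ ⟨z, hzS⟩, rfl⟩

end Fermat.Agent.S56.GW

end
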