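/-
S56 (Taylor-Wiles primes), block GW: the cup product `H¹ × H¹ → H²` attached to an equivariant bilinear
pairing, in the relative homogeneous model of `Fermat/Agent/PT/Coh`.
`(x ∪ y)(g₀,g₁,g₂) = β (x g₀ g₁) (y g₁ g₂)`.
-/
import Fermat.Agent.PT.Global.Interface

set_option autoImplicit false
set_option maxHeartbeats 400000
set_option linter.unusedSectionVars false

namespace Fermat.Agent.S56.GW

open Fermat.Agent.PT

variable {k G A B C : Type*} [CommRing k] [Group G] [AddCommGroup A] [Module k A]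
  [AddCommGroup B] [Module k B] [AddCommGroup C] [Module k C]

/-- `β : A × B → C` is equivariant for the subgroup `V`. -/
def IsPairingOn (V : Subgroup G) (ρ : Representation k G A) (σ : Representation k G B)
    (τ : Representation k G C) (β : A →ₗ[k] B →ₗ[k] C) : Prop :=
  ∀ v ∈ V, ∀ a b, β (ρ v a) (σ v b) = τ v (β a b)

theorem IsPairingOn.mono {V V' : Subgroup G} {ρ : Representation k G A} {σ : Representation k G B}
    {τ : Representation k G C} {β : A →ₗ[k] B →ₗ[k] C} (h : IsPairingOn V ρ σ τ β) (hV : V' ≤ V) :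
    IsPairingOn V' ρ σ τ β := fun v hv => h v (hV hv)

/-- The cup product of homogeneous `1`-cochains. -/
def cup11 (β : A →ₗ[k] B →ₗ[k] C) (x : G → G → A) (y : G → G → B) : G → G → G → C :=
  fun g₀ g₁ g₂ => β (x g₀ g₁) (y g₁ g₂)

@[simp] theorem cup11_apply (β : A →ₗ[k] B →ₗ[k] C) (x : G → G → A) (y : G → G → B) (g₀ g₁ g₂ : G) :
    cup11 β x y g₀ g₁ g₂ = β (x g₀ g₁) (y g₁ g₂) := rfl

variable {L : LevelSystem G} {V : Subgroup G} {ρ : Representation k G A}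
  {σ : Representation k G B} {τ : Representation k G C} {β : A →ₗ[k] B →ₗ[k] C}

theorem cup11_mem_X2 (hβ : IsPairingOn V ρ σ τ β) {x : G → G → A} {y : G → G → B}
    (hx : x ∈ X1 L V ρ) (hy : y ∈ X1 L V σ) : cup11 β x y ∈ X2 L V τ := by
  obtain ⟨hex, U, hU, hsx⟩ := hx
  obtain ⟨hey, U', hU', hsy⟩ := hy
  obtain ⟨W, hW, h1, h2⟩ := L.directed' U hU U' hU'
  refine ⟨fun v hv g₀ g₁ g₂ => ?_, W, hW, fun g₀ g₁ g₂ u₀ h₀ u₁ h₁ u₂ h₂ => ?_⟩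
  · rw [cup11_apply, cup11_apply, hex v hv, hey v hv, hβ v hv]
  · rw [cup11_apply, cup11_apply, hsx g₀ g₁ u₀ (h1 h₀) u₁ (h1 h₁), hsy g₁ g₂ u₁ (h2 h₁) u₂ (h2 h₂)]

/-- `d(x ∪ y) = 0` for cocycles: `d2 (x ∪ y) g₀ g₁ g₂ g₃ = - β (x g₀ g₁) (d1 y g₁ g₂ g₃)` once
`x g₁ g₂ - x g₀ g₂ = - x g₀ g₁`. -/
theorem cup11_mem_Z2 (hβ : IsPairingOn V ρ σ τ β) {x : G → G → A} {y : G → G → B}
    (hx : x ∈ Z1 L V ρ) (hy : y ∈ Z1 L V σ) : cup11 β x y ∈ Z2 L V τ := by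
  obtain ⟨hx1, hx2⟩ := hx
  obtain ⟨hy1, hy2⟩ := hy
  refine ⟨cup11_mem_X2 hβ hx1 hy1, ?_⟩
  have hx3 : ∀ g₀ g₁ g₂, x g₀ g₂ = x g₁ g₂ + x g₀ g₁ := by
    intro g₀ g₁ g₂
    have h := congrFun (congrFun (congrFun hx2 g₀) g₁) g₂
    simp only [d1_apply, Pi.zero_apply] at h
    have h' : x g₁ g₂ + x g₀ g₁ - x g₀ g₂ = 0 := by rw [← h]; abel
    exact (sub_eq_zero.mp h').symm
  have hy3 : ∀ g₀ g₁ g₂, y g₀ g₂ = y g₁ g₂ + y g₀ g₁ := by
    intro g₀ g₁ g₂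
    have h := congrFun (congrFun (congrFun hy2 g₀) g₁) g₂
    simp only [d1_apply, Pi.zero_apply] at h
    have h' : y g₁ g₂ + y g₀ g₁ - y g₀ g₂ = 0 := by rw [← h]; abel
    exact (sub_eq_zero.mp h').symm
  show d2 (k := k) (cup11 β x y) = 0
  funext g₀ g₁ g₂ g₃
  simp only [d2_apply, cup11_apply, Pi.zero_apply]
  rw [hx3 g₀ g₁ g₂, hy3 g₁ g₂ g₃]
  simp only [map_add, LinearMap.add_apply]
  abel

/-- `(d0 e) ∪ y = d1 w`, `w g₀ g₁ = β (e g₀) (y g₀ g₁)`. -/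
theorem cup11_mem_B2_left (hβ : IsPairingOn V ρ σ τ β) {x : G → G → A} {y : G → G → B}
    (hx : x ∈ B1 L V ρ) (hy : y ∈ Z1 L V σ) : cup11 β x y ∈ B2 L V τ := by
  obtain ⟨e, ⟨hee, U, hU, hse⟩, rfl⟩ := hx
  obtain ⟨⟨hey, U', hU', hsy⟩, hy2⟩ := hy
  obtain ⟨W, hW, h1, h2⟩ := L.directed' U hU U' hU'
  have hy3 : ∀ g₀ g₁ g₂, y g₀ g₂ = y g₁ g₂ + y g₀ g₁ := by
    intro g₀ g₁ g₂
    have h := congrFun (congrFun (congrFun hy2 g₀) g₁) g₂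
    simp only [d1_apply, Pi.zero_apply] at h
    have h' : y g₁ g₂ + y g₀ g₁ - y g₀ g₂ = 0 := by rw [← h]; abel
    exact (sub_eq_zero.mp h').symm
  refine ⟨fun g₀ g₁ => β (e g₀) (y g₀ g₁), ⟨fun v hv g₀ g₁ => ?_, W, hW,
    fun g₀ g₁ u₀ h₀ u₁ h₁ => ?_⟩, ?_⟩
  · show β (e (v * g₀)) (y (v * g₀) (v * g₁)) = τ v (β (e g₀) (y g₀ g₁))
    rw [hee v hv, hey v hv, hβ v hv]
  · show β (e (g₀ * u₀)) (y (g₀ * u₀) (g₁ * u₁)) = β (e g₀) (y g₀ g₁)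
    rw [hse g₀ u₀ (h1 h₀), hsy g₀ g₁ u₀ (h2 h₀) u₁ (h2 h₁)]
  · funext g₀ g₁ g₂
    simp only [d1_apply, cup11_apply, d0_apply]
    rw [hy3 g₀ g₁ g₂]
    simp only [map_add, map_sub, LinearMap.sub_apply]
    abel

/-- `x ∪ (d0 e) = d1 (-w)`, `w g₀ g₁ = β (x g₀ g₁) (e g₁)`. -/
theorem cup11_mem_B2_right (hβ : IsPairingOn V ρ σ τ β) {x : G → G → A} {y : G → G → B}
    (hx : x ∈ Z1 L V ρ) (hy : y ∈ B1 L V σ) : cup11 β x y ∈ B2 L V τ := by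
  obtain ⟨⟨hex, U, hU, hsx⟩, hx2⟩ := hx
  obtain ⟨e, ⟨hee, U', hU', hse⟩, rfl⟩ := hy
  obtain ⟨W, hW, h1, h2⟩ := L.directed' U hU U' hU'
  have hx3 : ∀ g₀ g₁ g₂, x g₀ g₂ = x g₁ g₂ + x g₀ g₁ := by
    intro g₀ g₁ g₂
    have h := congrFun (congrFun (congrFun hx2 g₀) g₁) g₂
    simp only [d1_apply, Pi.zero_apply] at h
    have h' : x g₁ g₂ + x g₀ g₁ - x g₀ g₂ = 0 := by rw [← h]; abel
    exact (sub_eq_zero.mp h').symm
  refine ⟨fun g₀ g₁ => - β (x g₀ g₁) (e g₁), ⟨fun v hv g₀ g₁ => ?_, W, hW,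
    fun g₀ g₁ u₀ h₀ u₁ h₁ => ?_⟩, ?_⟩
  · show - β (x (v * g₀) (v * g₁)) (e (v * g₁)) = τ v (- β (x g₀ g₁) (e g₁))
    rw [hee v hv, hex v hv, hβ v hv, map_neg]
  · show - β (x (g₀ * u₀) (g₁ * u₁)) (e (g₁ * u₁)) = - β (x g₀ g₁) (e g₁)
    rw [hse g₁ u₁ (h2 h₁), hsx g₀ g₁ u₀ (h1 h₀) u₁ (h1 h₁)]
  · funext g₀ g₁ g₂
    simp only [d1_apply, cup11_apply, d0_apply]
    rw [hx3 g₀ g₁ g₂]
    simp only [map_add, map_sub, LinearMap.add_apply]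
    abel

variable (L)

/-- The cup product on cocycles, with values in `H²`. -/
def cupZ (hβ : IsPairingOn V ρ σ τ β) : Z1 L V ρ →ₗ[k] Z1 L V σ →ₗ[k] H2 L V τ :=
  LinearMap.mk₂ k (fun x y => H2.mk L V τ ⟨cup11 β x y, cup11_mem_Z2 hβ x.2 y.2⟩)
    (fun x x' y => by
      rw [← map_add]; congr 1; apply Subtype.ext; funext g₀ g₁ g₂
      simp [cup11])
    (fun c x y => by
      rw [← map_smul]; congr 1; apply Subtype.ext; funext g₀ g₁ g₂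
      simp [cup11])
    (fun x y y' => by
      rw [← map_add]; congr 1; apply Subtype.ext; funext g₀ g₁ g₂
      simp [cup11])
    (fun c x y => by
      rw [← map_smul]; congr 1; apply Subtype.ext; funext g₀ g₁ g₂
      simp [cup11])

/-- Intermediate step: the second variable descends to `H¹`. -/
def cupZH (hβ : IsPairingOn V ρ σ τ β) : Z1 L V ρ →ₗ[k] H1 L V σ →ₗ[k] H2 L V τ where
  toFun x := Submodule.liftQ _ (cupZ L hβ x) (fun y hy =>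
    (H2.mk_eq_zero_iff L V τ _).2 (cup11_mem_B2_right hβ x.2 hy))
  map_add' x x' := by
    apply Submodule.linearMap_qext
    ext y
    exact congrFun (congrArg DFunLike.coe (map_add (cupZ L hβ) x x')) y
  map_smul' c x := by
    apply Submodule.linearMap_qext
    ext y
    exact congrFun (congrArg DFunLike.coe (map_smul (cupZ L hβ) c x)) y

/-- **The cup product** `H¹(V,ρ) × H¹(V,σ) → H²(V,τ)`. -/
def cupH (hβ : IsPairingOn V ρ σ τ β) : H1 L V ρ →ₗ[k] H1 L V σ →ₗ[k] H2 L V τ :=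
  Submodule.liftQ _ (cupZH L hβ) (fun x hx => by
    rw [LinearMap.mem_ker]
    apply Submodule.linearMap_qext
    ext y
    exact (H2.mk_eq_zero_iff L V τ _).2 (cup11_mem_B2_left hβ hx y.2))

theorem cupH_mk (hβ : IsPairingOn V ρ σ τ β) (x : Z1 L V ρ) (y : Z1 L V σ) :
    cupH L hβ (H1.mk L V ρ x) (H1.mk L V σ y) =
      H2.mk L V τ ⟨cup11 β x y, cup11_mem_Z2 hβ x.2 y.2⟩ := rfl

variable {L}

/-- Compatibility with restriction/inflation (inclusion of complexes). -/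
theorem cupH_inclC {L' : LevelSystem G} {V' : Subgroup G} (hL : L ≤ L') (hV : V' ≤ V)
    (hβ : IsPairingOn V ρ σ τ β) (x : H1 L V ρ) (y : H1 L V σ) :
    cupH L' (hβ.mono hV) ((inclC ρ hL hV).H1 x) ((inclC σ hL hV).H1 y) =
      (inclC τ hL hV).H2 (cupH L hβ x y) := by
  obtain ⟨x, rfl⟩ := H1.mk_surjective L V ρ x
  obtain ⟨y, rfl⟩ := H1.mk_surjective L V σ y
  rfl

end Fermat.Agent.S56.GW
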