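/-
S56 (Taylor-Wiles primes), block GW: the linear algebra of the Greenberg-Wiles inequality, and the choice of a
finite set of primes killing a finite dimensional space.
-/
import Mathlib

set_option autoImplicit false
set_option maxHeartbeats 400000
set_option linter.unusedSectionVars false

open Module

noncomputable section

namespace Fermat.Agent.S56.GW

/-- **(LA)**  `dim Y + dim Sel_X ≤ dim Sel_Y + ∑ dim L_i + dim Ш_X`.
`W := ∀ i, Lc i` (`Module.finrank_pi_fintype`).  `α : SelX → W`, `x ↦ (a i x)_i`, `ker α ≃ ShX` (`ShX ≤ SelX`), so `SelX` is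
finite (`Module.Finite.of_submodule_quotient` / injectivity of `SelX ⧸ ker α → W`) and
`finrank SelX = finrank (range α) + finrank ShX`.
`Φ : Y → Dual W`, `Φ y w = ∑ i, P i (w i) (b i y)`;  `ker Φ = SelY` (test on `Pi.single i l` / `LinearMap.single`);
`range Φ ≤ (range α).dualAnnihilator` by `hrec`;  `Subspace.finrank_add_finrank_dualAnnihilator_eq`
(`finrank U + finrank U.dualAnnihilator = finrank W`);  `LinearMap.finrank_range_add_finrank_ker`. -/
theorem LA_R2 {K : Type*} [Field K] {X Y : Type*} [AddCommGroup X] [Module K X] [AddCommGroup Y]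
    [Module K Y] {ι : Type*} [Fintype ι] {Hx Hy : ι → Type*} [∀ i, AddCommGroup (Hx i)]
    [∀ i, Module K (Hx i)] [∀ i, AddCommGroup (Hy i)] [∀ i, Module K (Hy i)]
    (a : ∀ i, X →ₗ[K] Hx i) (b : ∀ i, Y →ₗ[K] Hy i) (P : ∀ i, Hx i →ₗ[K] Hy i →ₗ[K] K)
    (Lc : ∀ i, Submodule K (Hx i)) (hLc : ∀ i, Module.Finite K (Lc i)) [Module.Finite K Y]
    (hrec : ∀ x y, ∑ i, P i (a i x) (b i y) = 0)
    (SelX ShX : Submodule K X) (SelY : Submodule K Y)
    (hSelX : ∀ x, x ∈ SelX ↔ ∀ i, a i x ∈ Lc i) (hShX : ∀ x, x ∈ ShX ↔ ∀ i, a i x = 0)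
    (hSelY : ∀ y, y ∈ SelY ↔ ∀ i, ∀ l ∈ Lc i, P i l (b i y) = 0) [Module.Finite K ShX] :
    Module.Finite K SelX ∧
      finrank K Y + finrank K SelX ≤ finrank K SelY + ∑ i, finrank K (Lc i) + finrank K ShX := by
  classical
  let α : SelX →ₗ[K] (∀ i, Lc i) :=
    LinearMap.pi (fun i => (a i ∘ₗ SelX.subtype).codRestrict (Lc i) (fun x => (hSelX x).1 x.2 i))
  have hα : ∀ (x : SelX) (i : ι), ((α x i : Lc i) : Hx i) = a i x := fun x i => rfl
  have hle : ShX ≤ SelX := by
    intro x hx
    rw [hSelX]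
    intro i
    rw [(hShX x).1 hx i]
    exact zero_mem _
  have hker : LinearMap.ker α = ShX.comap SelX.subtype := by
    ext x
    rw [LinearMap.mem_ker, Submodule.mem_comap, hShX]
    constructor
    · intro h i
      have := congrArg (fun w => ((w i : Lc i) : Hx i)) h
      simpa [hα] using this
    · intro h
      funext i
      apply Subtype.ext
      rw [hα]
      exact h i
  let e : LinearMap.ker α ≃ₗ[K] ShX :=
    (LinearEquiv.ofEq _ _ hker).trans (Submodule.comapSubtypeEquivOfLe hle)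
  have hfinker : Module.Finite K (LinearMap.ker α) := Module.Finite.equiv e.symm
  have hfinq : Module.Finite K (SelX ⧸ LinearMap.ker α) :=
    Module.Finite.equiv α.quotKerEquivRange.symm
  have hfin : Module.Finite K SelX := Module.Finite.of_submodule_quotient (LinearMap.ker α)
  refine ⟨hfin, ?_⟩
  have h1 : finrank K (LinearMap.range α) + finrank K ShX = finrank K SelX := by
    rw [← e.finrank_eq]
    exact LinearMap.finrank_range_add_finrank_ker α
  let Φ : Y →ₗ[K] Dual K (∀ i, Lc i) :=
    ∑ i, (LinearMap.lcomp K K ((Lc i).subtype ∘ₗ LinearMap.proj i)) ∘ₗ ((P i).flip ∘ₗ b i)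
  have hΦ : ∀ (y : Y) (w : ∀ i, Lc i), Φ y w = ∑ i, P i (w i) (b i y) := by
    intro y w
    simp [Φ, LinearMap.sum_apply]
  have hkerΦ : LinearMap.ker Φ = SelY := by
    ext y
    rw [LinearMap.mem_ker, hSelY]
    constructor
    · intro h i l hl
      have h2 := hΦ y (Pi.single i ⟨l, hl⟩)
      rw [h, LinearMap.zero_apply, Finset.sum_eq_single i] at h2
      · simpa using h2.symm
      · intro j _ hj
        rw [Pi.single_eq_of_ne hj]
        simp
      · intro hi
        exact absurd (Finset.mem_univ i) hi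
    · intro h
      refine LinearMap.ext fun w => ?_
      rw [hΦ, LinearMap.zero_apply]
      exact Finset.sum_eq_zero fun i _ => h i _ (w i).2
  have hrange : LinearMap.range Φ ≤ (LinearMap.range α).dualAnnihilator := by
    rintro _ ⟨y, rfl⟩
    rw [Submodule.mem_dualAnnihilator]
    rintro _ ⟨x, rfl⟩
    rw [hΦ]
    exact hrec x y
  have h2 : finrank K (LinearMap.range Φ) + finrank K SelY = finrank K Y := by
    rw [← hkerΦ]
    exact LinearMap.finrank_range_add_finrank_ker Φ
  have h3 : finrank K (LinearMap.range Φ) ≤ finrank K (LinearMap.range α).dualAnnihilator :=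
    Submodule.finrank_mono hrange
  have h4 := Subspace.finrank_add_finrank_dualAnnihilator_eq (LinearMap.range α)
  rw [Module.finrank_pi_fintype] at h4
  omega

/-- **Choice of the primes.**  Induction on `j ≤ finrank H`: there is `Q` with `Q.card = j`, disjoint from `T₀`, `P` on `Q`, and
`finrank (⨅ q ∈ Q, ker (ev q)) + j ≤ finrank H`.  Step: let `N := ⨅ q ∈ Q, ker (ev q)`.  If `N ≠ ⊥` take `0 ≠ y ∈ N`; if `N = ⊥`
then `H ≠ 0` (as `j < finrank H`), take any `y ≠ 0`.  `hsup (T₀ ∪ Q) y` gives `q`.  In the first case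
`N ⊓ ker (ev q) < N` (`Submodule.finrank_lt_finrank_of_lt`), in the second case `N ⊓ ker (ev q) = ⊥` has `finrank = 0`. -/
theorem exists_killing_set {K : Type*} [Field K] {H : Type*} [AddCommGroup H] [Module K H]
    [Module.Finite K H] {X : Nat.Primes → Type*} [∀ q, AddCommGroup (X q)] [∀ q, Module K (X q)]
    (ev : ∀ q, H →ₗ[K] X q) (P : Nat.Primes → Prop)
    (hsup : ∀ T : Finset Nat.Primes, ∀ y : H, y ≠ 0 → ∃ q, q ∉ T ∧ P q ∧ ev q y ≠ 0)
    (T₀ : Finset Nat.Primes) :
    ∃ Q : Finset Nat.Primes, Q.card = finrank K H ∧ Disjoint Q T₀ ∧ (∀ q ∈ Q, P q) ∧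
      ∀ y, (∀ q ∈ Q, ev q y = 0) → y = 0 := by
  classical
  have key : ∀ j : ℕ, j ≤ finrank K H → ∃ Q : Finset Nat.Primes, Q.card = j ∧ Disjoint Q T₀ ∧
      (∀ q ∈ Q, P q) ∧ finrank K (⨅ q ∈ Q, LinearMap.ker (ev q) : Submodule K H) + j
        ≤ finrank K H := by
    intro j
    induction j with
    | zero =>
      intro _
      exact ⟨∅, rfl, Finset.disjoint_empty_left _, by simp, Submodule.finrank_le _⟩
    | succ j ih =>
      intro hj
      obtain ⟨Q, hcard, hdisj, hP, hfr⟩ := ih (by omega)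
      set N : Submodule K H := ⨅ q ∈ Q, LinearMap.ker (ev q) with hN
      obtain ⟨y, hy0, hyN⟩ : ∃ y : H, y ≠ 0 ∧ (N ≠ ⊥ → y ∈ N) := by
        by_cases hbot : N = ⊥
        · have : Nontrivial H := by
            apply Module.nontrivial_of_finrank_pos (R := K)
            omega
          obtain ⟨y, hy⟩ := exists_ne (0 : H)
          exact ⟨y, hy, fun h => absurd hbot h⟩
        · obtain ⟨y, hy, hy0⟩ := Submodule.exists_mem_ne_zero_of_ne_bot hbot
          exact ⟨y, hy0, fun _ => hy⟩
      obtain ⟨q, hq, hPq, hev⟩ := hsup (T₀ ∪ Q) y hy0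
      rw [Finset.mem_union, not_or] at hq
      refine ⟨insert q Q, ?_, ?_, ?_, ?_⟩
      · rw [Finset.card_insert_of_notMem hq.2, hcard]
      · rw [Finset.disjoint_insert_left]
        exact ⟨hq.1, hdisj⟩
      · intro q' hq'
        rcases Finset.mem_insert.1 hq' with rfl | h
        · exact hPq
        · exact hP q' h
      · rw [Finset.iInf_insert, ← hN]
        by_cases hbot : N = ⊥
        · rw [hbot, inf_bot_eq, finrank_bot]
          omega
        · have hlt : LinearMap.ker (ev q) ⊓ N < N := by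
            refine lt_of_le_of_ne inf_le_right fun heq => ?_
            have : y ∈ LinearMap.ker (ev q) ⊓ N := by rw [heq]; exact hyN hbot
            exact hev (LinearMap.mem_ker.1 this.1)
          have := Submodule.finrank_lt_finrank_of_lt hlt
          omega
  obtain ⟨Q, hcard, hdisj, hP, hfr⟩ := key (finrank K H) le_rfl
  refine ⟨Q, hcard, hdisj, hP, fun y hy => ?_⟩
  have h0 : finrank K (⨅ q ∈ Q, LinearMap.ker (ev q) : Submodule K H) = 0 := by omega
  rw [Submodule.finrank_eq_zero] at h0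
  have : y ∈ (⨅ q ∈ Q, LinearMap.ker (ev q) : Submodule K H) := by
    simp only [Submodule.mem_iInf, LinearMap.mem_ker]
    exact hy
  rw [h0] at this
  exact (Submodule.mem_bot K).1 this

end Fermat.Agent.S56.GW

end
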