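/-
S56 (Taylor-Wiles primes), block GW: global reciprocity for cup products,
`∑_{v ∈ S} lam_v (loc_v x ∪ loc_v y) = 0`, with injective local functionals `lam_v` (from S55).
-/
import Fermat.Agent.S56.GW.Sel
import Fermat.Agent.PT.Final.Top

set_option autoImplicit false
set_option maxHeartbeats 400000
set_option linter.unusedSectionVars false

open ExtCitation

noncomputable section

namespace Fermat.Agent.S56.GW

open Fermat.Agent.PT

variable {p : ℕ} [Fact p.Prime] {S : Finset Nat.Primes}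

/-- Injective local functionals satisfying reciprocity. -/
theorem exists_lam (hp2 : p ≠ 2) (S : Finset Nat.Primes) (hpS : pPrime p ∈ S) :
    ∃ lam : LocalFunctionals p S, (∀ ℓ, Function.Injective (lam ℓ)) ∧ ReciprocityStatement lam := by
  have hLC := Local.localCard p
  have hNr := Local.localNr p
  have hCo := Local.localCoresOnto p
  have hHP := hpStatement hp2
  have hR := rPrimeStatement hp2 hHP hLC
  have hFC := Koch.FC hp2 (kummerQbar p) hLC hNr hHP
  have hFA := FA.faCofinal hp2 hLC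
  obtain ⟨lam, h1, h2, -⟩ := Base.base_main p hR hFA hFC hLC hNr hCo S hpS
  obtain ⟨U₀, hU₀⟩ := Lall.nonempty'
  exact ⟨lam, fun ℓ => (LocDual.bijective_of_card_eq
    (hLC ⊤ ⟨U₀, hU₀, le_top⟩ _ (LocDual.primeLocalPlace_isFin ℓ.1)) (lam ℓ) (h1 ℓ)).1, h2⟩

variable {A B : Type} [AddCommGroup A] [Module (ZMod p) A] [AddCommGroup B] [Module (ZMod p) B]
  {ρ : Representation (ZMod p) GQ A} {σ : Representation (ZMod p) GQ B}
  {β : A →ₗ[ZMod p] B →ₗ[ZMod p] ZMod p}

theorem cupLoc_locv (hβ : IsPairingOn ⊤ ρ σ (cycRep p) β) (v : Nat.Primes)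
    (x : H1 (LS S) ⊤ ρ) (y : H1 (LS S) ⊤ σ) :
    cupLoc hβ v (locv S ρ v x) (locv S σ v y) =
      loc2 S ⊤ (cycRep p) (primeLocalPlace v) (cupH (LS S) hβ x y) :=
  cupH_inclC (LS_le_Lall S) inf_le_left hβ x y

theorem cup_reciprocity {lam : LocalFunctionals p S} (hrec : ReciprocityStatement lam)
    (hβ : IsPairingOn ⊤ ρ σ (cycRep p) β) (x : H1 (LS S) ⊤ ρ) (y : H1 (LS S) ⊤ σ) :
    ∑ v : ↥S, lam v (cupLoc hβ v.1 (locv S ρ v.1 x) (locv S σ v.1 y)) = 0 := by
  rw [← hrec (cupH (LS S) hβ x y)]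
  exact Finset.sum_congr rfl fun v _ => by rw [cupLoc_locv]

end Fermat.Agent.S56.GW

end
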