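/-
S56 (Taylor-Wiles primes), block GW: the Greenberg-Wiles inequality
 `dim Sel_S(ρ,𝓛) + ∑_{v∈S} h⁰(D_v,ρ) + dim B ≤ dim Sel_S(σ,𝓛^⊥) + ∑_{v∈S} dim 𝓛_v + h⁰(G_Q,ρ) + dim B^{c=1}`.
-/
import Fermat.Agent.S56.GW.Recip
import Fermat.Agent.S56.GW.LinAlg
import Fermat.Agent.S56.GW.G1.Main
import Fermat.Agent.S56.G2.Statement

set_option autoImplicit false
set_option maxHeartbeats 400000
set_option linter.unusedSectionVars false

open ExtCitation Module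

noncomputable section

namespace Fermat.Agent.S56.GW

open Fermat.Agent.PT

variable {p : ℕ} [Fact p.Prime] {S : Finset Nat.Primes}
variable {A B : Type} [AddCommGroup A] [Module (ZMod p) A] [AddCommGroup B] [Module (ZMod p) B]
  {ρ : Representation (ZMod p) GQ A} {σ : Representation (ZMod p) GQ B}
  {β : A →ₗ[ZMod p] B →ₗ[ZMod p] ZMod p}

theorem R2 (hp2 : p ≠ 2) (hpS : pPrime p ∈ S) [Module.Finite (ZMod p) B]
    (hσ : IsSmoothRep (LS S) σ)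
    (hβ : IsPairingOn ⊤ ρ σ (cycRep p) β) (hβl : Function.Bijective β)
    (hfinY : Module.Finite (ZMod p) (H1 (LS S) ⊤ σ))
    (hfinH2 : Module.Finite (ZMod p) (H2 (LS S) ⊤ σ))
    (hEul : finrank (ZMod p) (H0 (LS S) ⊤ σ) + finrank (ZMod p) (H2 (LS S) ⊤ σ) + finrank (ZMod p) B
      ≤ finrank (ZMod p) (H1 (LS S) ⊤ σ) + finrank (ZMod p) (G2.plusPart σ))
    (𝓛 : LocCond ρ) (h𝓛fin : ∀ v ∈ S, Module.Finite (ZMod p) (𝓛 v)) :
    Module.Finite (ZMod p) (Sel S ρ 𝓛) ∧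
      finrank (ZMod p) (Sel S ρ 𝓛) + ∑ v ∈ S, finrank (ZMod p) (invOf (Dl v) ρ) + finrank (ZMod p) B
        ≤ finrank (ZMod p) (Sel S σ (perp hβ 𝓛)) + ∑ v ∈ S, finrank (ZMod p) (𝓛 v)
          + finrank (ZMod p) (invOf ⊤ ρ) + finrank (ZMod p) (G2.plusPart σ) := by
  obtain ⟨lam, hinj, hrec⟩ := exists_lam hp2 S hpS
  obtain ⟨g1, g2⟩ := G1 (ρ := ρ) hp2 hpS hσ hβ hβl
  have hSh : Module.Finite (ZMod p) (Sh1 S ρ) := g1.1 hfinH2
  have hG1 := g2 hSh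
  have key := LA_R2 (K := ZMod p) (ι := ↥S)
    (Hx := fun v => H1 Lall (⊤ ⊓ Dl v.1) ρ) (Hy := fun v => H1 Lall (⊤ ⊓ Dl v.1) σ)
    (fun v => locv S ρ v.1) (fun v => locv S σ v.1)
    (fun v => (cupLoc hβ v.1).compr₂ (lam v)) (fun v => 𝓛 v.1) (fun v => h𝓛fin v.1 v.2)
    (fun x y => cup_reciprocity hrec hβ x y)
    (Sel S ρ 𝓛) (Sh1 S ρ) (Sel S σ (perp hβ 𝓛))
    (fun x => by rw [mem_Sel]; exact ⟨fun h v => h v.1 v.2, fun h v hv => h ⟨v, hv⟩⟩)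
    (fun x => by
      rw [Sh1, mem_Sel]
      exact ⟨fun h v => (Submodule.mem_bot _).1 (h v.1 v.2),
        fun h v hv => (Submodule.mem_bot _).2 (h ⟨v, hv⟩)⟩)
    (fun y => by
      rw [mem_Sel]
      constructor
      · intro h v l hl
        have := mem_perp.1 (h v.1 v.2) l hl
        show lam v (cupLoc hβ v.1 l (locv S σ v.1 y)) = 0
        rw [this, map_zero]
      · intro h v hv
        rw [mem_perp]
        intro l hl
        have h0 : lam ⟨v, hv⟩ (cupLoc hβ v l (locv S σ v y)) = 0 := h ⟨v, hv⟩ l hl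
        exact hinj ⟨v, hv⟩ (by rw [h0, map_zero]))
  refine ⟨key.1, ?_⟩
  have k2 := key.2
  rw [Finset.sum_coe_sort S (fun v => finrank (ZMod p) (𝓛 v))] at k2
  rw [Finset.sum_coe_sort S (fun v => finrank (ZMod p) (invOf (Dl v) ρ))] at hG1
  omega

end Fermat.Agent.S56.GW

end
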