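/-
S56 (Taylor-Wiles primes), block GW: MAIN THEOREM.  Existence of sets `Q` of Taylor-Wiles primes of a fixed cardinality `r` such that the
Selmer group with no condition at `Q` has at most `p ^ (r f)` elements.
-/
import Fermat.Agent.S56.GW.R2
import Fermat.Agent.S56.GW.Enlarge
import Fermat.Agent.S56.GW.Local
import Fermat.Agent.S56.GW.Nondeg.Local

set_option autoImplicit false
set_option maxHeartbeats 1000000
set_option linter.unusedSectionVars false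

open ExtCitation Module

noncomputable section

namespace Fermat.Agent.S56.GW

open Fermat.Agent.PT

variable {p : ℕ} [Fact p.Prime]
variable {A B : Type} [AddCommGroup A] [Module (ZMod p) A] [AddCommGroup B] [Module (ZMod p) B]
  {ρ : Representation (ZMod p) GQ A} {σ : Representation (ZMod p) GQ B}
  {β : A →ₗ[ZMod p] B →ₗ[ZMod p] ZMod p}

theorem isSmoothRep_monoS {S S' : Finset Nat.Primes} (h : S ⊆ S') {ρ : Representation (ZMod p) GQ A}
    (hρ : IsSmoothRep (LS S) ρ) : IsSmoothRep (LS S') ρ := fun a => by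
  obtain ⟨U, hU, hfix⟩ := hρ a
  exact ⟨U, LS_mono h hU, hfix⟩

theorem isSmoothRep_toLall {S : Finset Nat.Primes} {ρ : Representation (ZMod p) GQ A}
    (hρ : IsSmoothRep (LS S) ρ) : IsSmoothRep Lall ρ := fun a => by
  obtain ⟨U, hU, hfix⟩ := hρ a
  exact ⟨U, LS_le_Lall S hU, hfix⟩

theorem condQ_of_mem_Smin {Smin Q : Finset Nat.Primes} {𝓛 : LocCond ρ} {v : Nat.Primes}
    (hv : v ∈ Smin) : condQ Smin 𝓛 Q v = 𝓛 v := by simp [condQ, hv]

theorem condQ_of_mem_Q {Smin Q : Finset Nat.Primes} {𝓛 : LocCond ρ} {v : Nat.Primes}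
    (hv : v ∉ Smin) (hQ : v ∈ Q) : condQ Smin 𝓛 Q v = ⊤ := by simp [condQ, hv, hQ]

theorem condQ_of_not_mem {Smin Q : Finset Nat.Primes} {𝓛 : LocCond ρ} {v : Nat.Primes}
    (hv : v ∉ Smin) (hQ : v ∉ Q) : condQ Smin 𝓛 Q v = Lur ρ v := by simp [condQ, hv, hQ]

theorem condQ_eq_empty {Smin Q : Finset Nat.Primes} {𝓛 : LocCond ρ} {v : Nat.Primes}
    (hQ : v ∉ Q) : condQ Smin 𝓛 Q v = condQ Smin 𝓛 ∅ v := by simp [condQ, hQ]

/-- **Main theorem of block (GW).** -/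
theorem GW_main (hp2 : p ≠ 2) (hE : G2.EulerStatement p) (Smin T₀ : Finset Nat.Primes)
    (hpS : pPrime p ∈ Smin) [Module.Finite (ZMod p) A] [Module.Finite (ZMod p) B]
    (hρ : IsSmoothRep (LS Smin) ρ) (hσ : IsSmoothRep (LS Smin) σ)
    (hβ : IsPairingOn ⊤ ρ σ (cycRep p) β) (hβl : Function.Bijective β)
    (hβr : Function.Bijective β.flip) (f : ℕ)
    (hH0 : invOf ⊤ ρ = ⊥)
    (harch : finrank (ZMod p) (G2.plusPart σ) + f ≤ finrank (ZMod p) B)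
    (𝓛 : LocCond ρ) (h𝓛fin : ∀ v ∈ Smin, Module.Finite (ZMod p) (𝓛 v))
    (h𝓛 : ∑ v ∈ Smin, finrank (ZMod p) (𝓛 v) ≤ ∑ v ∈ Smin, finrank (ZMod p) (invOf (Dl v) ρ) + f)
    (hur : ∀ v, v ∉ Smin → Module.Finite (ZMod p) (Lur ρ v) ∧
      finrank (ZMod p) (Lur ρ v) ≤ finrank (ZMod p) (invOf (Dl v) ρ))
    (P : ℕ → Nat.Primes → Prop)
    (hP : ∀ n q, P n q → Module.Finite (ZMod p) (H1 Lall (⊤ ⊓ Dl q) ρ) ∧
      finrank (ZMod p) (H1 Lall (⊤ ⊓ Dl q) ρ) ≤ finrank (ZMod p) (invOf (Dl q) ρ) + f)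
    (hsup : ∀ (n : ℕ) (T S' : Finset Nat.Primes), Smin ⊆ S' → ∀ y : H1 (LS S') ⊤ σ, y ≠ 0 →
      ∃ q, q ∉ T ∧ P n q ∧ locv S' σ q y ≠ 0) :
    ∃ r : ℕ, ∀ n : ℕ, ∃ Q : Finset Nat.Primes, Q.card = r ∧ Disjoint Q T₀ ∧ (∀ q ∈ Q, P n q) ∧
      Finite (Sel (Smin ∪ Q) ρ (condQ Smin 𝓛 Q)) ∧
      Nat.card (Sel (Smin ∪ Q) ρ (condQ Smin 𝓛 Q)) ≤ p ^ (r * f) := by
  classical
  obtain ⟨S₀, hS₀, hEul⟩ := hE Smin hpS B σ hσ
  have hfinY₀ : Module.Finite (ZMod p) (H1 (LS S₀) ⊤ σ) := (hEul S₀ subset_rfl).1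
  -- the dual Selmer group
  set H : Submodule (ZMod p) (H1 (LS S₀) ⊤ σ) := Sel S₀ σ (perp hβ (condQ Smin 𝓛 ∅)) with hH
  refine ⟨finrank (ZMod p) H, fun n => ?_⟩
  obtain ⟨Q, hcard, hdisj, hPQ, hkill⟩ := exists_killing_set (K := ZMod p) (H := H)
    (X := fun q => H1 Lall (⊤ ⊓ Dl q) σ) (fun q => locv S₀ σ q ∘ₗ H.subtype) (P n)
    (fun T y hy => hsup n T S₀ hS₀ y.1 (fun h => hy (Subtype.ext h))) (T₀ ∪ S₀)
  have hdT : Disjoint Q T₀ := Finset.disjoint_of_subset_right Finset.subset_union_left hdisj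
  have hdS : Disjoint Q S₀ := Finset.disjoint_of_subset_right Finset.subset_union_right hdisj
  have hQS₀ : ∀ q ∈ Q, q ∉ S₀ := fun q hq h => (Finset.disjoint_left.1 hdS hq) h
  have hQSmin : ∀ q ∈ Q, q ∉ Smin := fun q hq h => hQS₀ q hq (hS₀ h)
  refine ⟨Q, hcard, hdT, hPQ, ?_⟩
  set Sg : Finset Nat.Primes := S₀ ∪ Q with hSg
  have hS₀Sg : S₀ ⊆ Sg := Finset.subset_union_left
  have hSminSg : Smin ⊆ Sg := hS₀.trans hS₀Sg
  obtain ⟨e1, e2, e3⟩ := hEul Sg hS₀Sg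
  set 𝓛Q : LocCond ρ := condQ Smin 𝓛 Q with h𝓛Q
  have hfinQ : ∀ v ∈ Sg, Module.Finite (ZMod p) (𝓛Q v) := by
    intro v _
    by_cases h1 : v ∈ Smin
    · rw [h𝓛Q, condQ_of_mem_Smin h1]; exact h𝓛fin v h1
    · by_cases h2 : v ∈ Q
      · rw [h𝓛Q, condQ_of_mem_Q h1 h2]
        have := (hP n v (hPQ v h2)).1
        infer_instance
      · rw [h𝓛Q, condQ_of_not_mem h1 h2]; exact (hur v h1).1
  obtain ⟨r1, r2⟩ := R2 hp2 (hSminSg hpS) (isSmoothRep_monoS hSminSg hσ) hβ hβl e1 e2 e3 𝓛Q hfinQ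
  -- the dual Selmer group over `Sg` vanishes
  have hdual : Sel Sg σ (perp hβ 𝓛Q) = ⊥ := by
    rw [eq_bot_iff]
    intro y hy
    rw [mem_Sel] at hy
    have hyQ : ∀ q ∈ Q, locv Sg σ q y = 0 := by
      intro q hq
      have h1 := hy q (Finset.mem_union_right _ hq)
      rw [perp_top_eq_bot (isSmoothRep_toLall hρ) hβ hβr 𝓛Q q (condQ_of_mem_Q (hQSmin q hq) hq)] at h1
      exact (Submodule.mem_bot _).1 h1
    obtain ⟨y₀, rfl⟩ := exists_inflS_of_mem_Lur hS₀Sg σ (isSmoothRep_monoS hS₀ hσ) y (by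
      intro v hv hv0
      have hvQ : v ∈ Q := (Finset.mem_union.1 hv).resolve_left hv0
      rw [hyQ v hvQ]
      exact zero_mem _)
    have hy₀ : y₀ ∈ H := by
      rw [hH, mem_Sel]
      intro v hv
      have h1 := hy v (hS₀Sg hv)
      rw [locv_inflS] at h1
      rw [mem_perp] at h1 ⊢
      intro x hx
      refine h1 x ?_
      rw [h𝓛Q, condQ_eq_empty (fun hq => hQS₀ v hq hv)]
      exact hx
    have h0 : (⟨y₀, hy₀⟩ : H) = 0 := hkill ⟨y₀, hy₀⟩ (fun q hq => by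
      have := hyQ q hq
      rw [locv_inflS] at this
      exact this)
    have h00 : y₀ = 0 := congrArg Subtype.val h0
    rw [h00, map_zero]
    exact zero_mem _
  have hd0 : finrank (ZMod p) (Sel Sg σ (perp hβ 𝓛Q)) = 0 := by rw [hdual]; exact finrank_bot _ _
  have hi0 : finrank (ZMod p) (invOf ⊤ ρ) = 0 := by rw [hH0]; exact finrank_bot _ _
  -- the local terms
  have hloc : ∑ v ∈ Sg, finrank (ZMod p) (𝓛Q v) ≤
      ∑ v ∈ Sg, finrank (ZMod p) (invOf (Dl v) ρ) + f + Q.card * f := by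
    rw [← Finset.sum_sdiff hSminSg, ← Finset.sum_sdiff hSminSg]
    have hA : ∑ v ∈ Smin, finrank (ZMod p) (𝓛Q v) = ∑ v ∈ Smin, finrank (ZMod p) (𝓛 v) :=
      Finset.sum_congr rfl fun v hv => by rw [h𝓛Q, condQ_of_mem_Smin hv]
    have hB : ∑ v ∈ Sg \ Smin, finrank (ZMod p) (𝓛Q v) ≤
        ∑ v ∈ Sg \ Smin, (finrank (ZMod p) (invOf (Dl v) ρ) + if v ∈ Q then f else 0) := by
      refine Finset.sum_le_sum fun v hv => ?_
      have h1 : v ∉ Smin := (Finset.mem_sdiff.1 hv).2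
      by_cases h2 : v ∈ Q
      · rw [h𝓛Q, condQ_of_mem_Q h1 h2, if_pos h2, finrank_top]
        exact (hP n v (hPQ v h2)).2
      · rw [h𝓛Q, condQ_of_not_mem h1 h2, if_neg h2, add_zero]
        exact (hur v h1).2
    have hC : ∑ v ∈ Sg \ Smin, (if v ∈ Q then f else 0) = Q.card * f := by
      rw [← Finset.sum_filter, Finset.sum_const, smul_eq_mul]
      congr 2
      ext v
      simp only [Finset.mem_filter, Finset.mem_sdiff]
      exact ⟨fun h => h.2, fun h => ⟨⟨Finset.mem_union_right _ h, hQSmin v h⟩, h⟩⟩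
    rw [Finset.sum_add_distrib, hC] at hB
    rw [hA]
    omega
  have hbig : finrank (ZMod p) (Sel Sg ρ 𝓛Q) ≤ Q.card * f := by omega
  -- inflation from `Smin ∪ Q` to `Sg`
  have hsub : Smin ∪ Q ⊆ Sg := Finset.union_subset_union_left hS₀
  have hmap : ∀ x ∈ Sel (Smin ∪ Q) ρ 𝓛Q, inflS hsub ρ x ∈ Sel Sg ρ 𝓛Q := by
    intro x hx
    rw [mem_Sel] at hx ⊢
    intro v _
    rw [locv_inflS]
    by_cases h1 : v ∈ Smin ∪ Q
    · exact hx v h1
    · rw [Finset.mem_union, not_or] at h1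
      rw [h𝓛Q, condQ_of_not_mem h1.1 h1.2]
      exact locv_mem_Lur _ ρ v (by rw [Finset.mem_union, not_or]; exact h1) x
  let ι : Sel (Smin ∪ Q) ρ 𝓛Q →ₗ[ZMod p] Sel Sg ρ 𝓛Q :=
    (inflS hsub ρ).restrict hmap
  have hι : Function.Injective ι := by
    intro x y hxy
    apply Subtype.ext
    exact inflS_injective hsub ρ (congrArg Subtype.val hxy)
  have hfin : Module.Finite (ZMod p) (Sel (Smin ∪ Q) ρ 𝓛Q) := Module.Finite.of_injective ι hι
  have hle : finrank (ZMod p) (Sel (Smin ∪ Q) ρ 𝓛Q) ≤ Q.card * f :=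
    (LinearMap.finrank_le_finrank_of_injective hι).trans hbig
  have hfinite : Finite (Sel (Smin ∪ Q) ρ 𝓛Q) := Module.finite_of_finite (ZMod p)
  refine ⟨hfinite, ?_⟩
  rw [Module.natCard_eq_pow_finrank (K := ZMod p), Nat.card_zmod, ← hcard]
  exact Nat.pow_le_pow_right (Fact.out : p.Prime).pos hle

end Fermat.Agent.S56.GW

end
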