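/-
S56 (Taylor-Wiles primes), block GW: the contract `B.GWMainStatement p` of `Fermat/Agent/S56/B/Contracts.lean`.
-/
import Fermat.Agent.S56.GW.Main
import Fermat.Agent.S56.B.Contracts

set_option autoImplicit false

open ExtCitation Module

namespace Fermat.Agent.S56.GW

open Fermat.Agent.PT

theorem gwMainStatement {p : ℕ} [Fact p.Prime] (hp2 : p ≠ 2) (hE : G2.EulerStatement p) :
    B.GWMainStatement p := by
  intro Smin T₀ hpS A B _ _ _ _ _ _ ρ σ β hρ hσ hβ hβl hβr f hH0 harch 𝓛 h𝓛fin h𝓛 hur P hP hsup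
  exact GW_main hp2 hE Smin T₀ hpS hρ hσ hβ hβl hβr f hH0 harch 𝓛 h𝓛fin h𝓛 hur P hP hsup

end Fermat.Agent.S56.GW
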